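/-
(G0-2a) of the finiteness route for `J₀(N)[m]`: homomorphisms from a finitely generated group to a
finite monoid form a finite set; congruence subgroups `Γ₀(N)`, `Γ₁(N)`, `Γ(N)` are finitely
generated; hence `Γ₀(N) →* μ_m` is finite. Mathlib only.
-/
import Mathlib

namespace Fermat.Agent.FF2.G0

open Matrix Matrix.SpecialLinearGroup ModularGroup
open scoped MatrixGroups

/-- Homomorphisms from a finitely generated group to a finite monoid form a finite set. -/
theorem finite_monoidHom_of_fg (G : Type*) [Group G] [Group.FG G] (M : Type*) [Monoid M]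
    [Finite M] : Finite (G →* M) := by
  obtain ⟨S, hS⟩ := (Group.fg_iff (G := G)).mp ‹Group.FG G›
  obtain ⟨hS1, hS2⟩ := hS
  have : Finite S := hS2.to_subtype
  refine Finite.of_injective (fun (f : G →* M) (s : S) => f s) ?_
  intro f g hfg
  refine MonoidHom.eq_of_eqOn_dense hS1 fun s hs => ?_
  exact congrFun hfg ⟨s, hs⟩

/-- `SL(2, ℤ)` is finitely generated (by `S` and `T`). -/
instance instFGSL2Z : Group.FG SL(2, ℤ) := by
  refine (Group.fg_iff (G := SL(2, ℤ))).mpr ⟨{S, T}, SpecialLinearGroup.SL2Z_generators, ?_⟩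
  exact Set.toFinite _

/-- Every finite index subgroup of `SL(2, ℤ)` is finitely generated (Schreier). -/
theorem fg_of_finiteIndex_SL2Z (Γ : Subgroup SL(2, ℤ)) [Γ.FiniteIndex] : Group.FG Γ :=
  Subgroup.fg_of_index_ne_zero Γ

/-- `Γ₀(N)` is finitely generated. -/
instance instFGGamma0 (N : ℕ) [NeZero N] : Group.FG (CongruenceSubgroup.Gamma0 N) :=
  fg_of_finiteIndex_SL2Z _

/-- Characters of a finite index subgroup of `SL(2, ℤ)` with values in a finite monoid: finite. -/
theorem finite_monoidHom_of_finiteIndex_SL2Z (Γ : Subgroup SL(2, ℤ)) [Γ.FiniteIndex]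
    (M : Type*) [Monoid M] [Finite M] : Finite (Γ →* M) :=
  haveI := fg_of_finiteIndex_SL2Z Γ
  finite_monoidHom_of_fg Γ M

/-- **`Hom(Γ₀(N), μ_m)` is finite.** -/
theorem finite_monoidHom_Gamma0_rootsOfUnity (N : ℕ) [NeZero N] (m : ℕ) [NeZero m] :
    Finite (CongruenceSubgroup.Gamma0 N →* rootsOfUnity m ℂ) :=
  finite_monoidHom_of_finiteIndex_SL2Z _ _

/-- Characters of a finitely generated group killed by `m`: finitely many. -/
theorem finite_setOf_char_pow_eq_one (G : Type*) [Group G] [Group.FG G] (m : ℕ) (hm : 0 < m) :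
    {χ : G →* ℂˣ | χ ^ m = 1}.Finite := by
  have : NeZero m := ⟨hm.ne'⟩
  have : Finite (G →* rootsOfUnity m ℂ) := finite_monoidHom_of_fg G _
  rw [← Set.finite_coe_iff]
  let F : {χ : G →* ℂˣ | χ ^ m = 1} → (G →* rootsOfUnity m ℂ) := fun χ =>
    MonoidHom.codRestrict χ.1 (rootsOfUnity m ℂ) (fun g => by
      rw [mem_rootsOfUnity]
      have h := χ.2
      have h' : (χ.1 ^ m) g = (1 : G →* ℂˣ) g := by rw [h]
      simpa using h')
  refine Finite.of_injective F ?_
  intro χ₁ χ₂ h
  apply Subtype.ext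
  ext g
  have := congrArg (fun φ : G →* rootsOfUnity m ℂ => ((φ g : ℂˣ) : ℂ)) h
  simpa [F] using this

/-- **(G0-2a), consumer's literal (helper27, msg 21682).** Characters of `Γ₀(N)` killed by `m`. -/
theorem finite_char_pow_eq_one (N : ℕ) [NeZero N] (m : ℕ) (hm : 0 < m) :
    {χ : ↥(CongruenceSubgroup.Gamma0 N) →* ℂˣ | χ ^ m = 1}.Finite :=
  finite_setOf_char_pow_eq_one _ m hm

end Fermat.Agent.FF2.G0
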