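import Mathlib

/-!
# MOONSHOT S19, node (G0-1a): holomorphic `m`-th roots of nonvanishing holomorphic functions

`exists_differentiableOn_pow_eq_of_ne_zero` : on an open simply connected `U ⊆ ℂ`, a holomorphic
function without zeros has a holomorphic `m`-th root (`m ≠ 0`).

The continuous root is Mathlib's `Complex.exists_continuousOn_pow_eq` (covering space lifting);
holomorphy follows from the local inverse of `w ↦ w ^ m`.
-/

set_option autoImplicit false

namespace Fermat.Agent.FF2.G0

open Complex Filter Topology Set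

/-- A function `r`, continuous at `z`, whose `m`-th power is differentiable at `z` and which does
not vanish at `z`, is differentiable at `z`. -/
theorem differentiableAt_of_pow_eq {r g : ℂ → ℂ} {z : ℂ} {m : ℕ} (hm : m ≠ 0)
    (hr : ContinuousAt r z) (hg : DifferentiableAt ℂ g z) (h0 : r z ≠ 0)
    (hpow : ∀ᶠ y in 𝓝 z, r y ^ m = g y) : DifferentiableAt ℂ r z := by
  have hp : HasStrictDerivAt (fun w : ℂ => w ^ m) ((m : ℂ) * r z ^ (m - 1)) (r z) :=
    hasStrictDerivAt_pow m (r z)
  have hp' : (m : ℂ) * r z ^ (m - 1) ≠ 0 :=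
    mul_ne_zero (Nat.cast_ne_zero.mpr hm) (pow_ne_zero _ h0)
  -- the local inverse of `w ↦ w ^ m` near `r z`
  have hinv := hp.eventually_left_inverse hp'
  have hψ := hp.to_localInverse hp'
  -- near `z`, `r y = ψ (g y)`
  have h1 : ∀ᶠ y in 𝓝 z, hp.localInverse _ _ _ hp' (r y ^ m) = r y := hr.eventually hinv
  have h2 : r =ᶠ[𝓝 z] fun y => hp.localInverse _ _ _ hp' (g y) := by
    filter_upwards [h1, hpow] with y hy1 hy2
    rw [← hy2, hy1]
  have hgz : g z = r z ^ m := (hpow.self_of_nhds).symm
  have h3 : DifferentiableAt ℂ (fun y => hp.localInverse _ _ _ hp' (g y)) z := by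
    have hd : DifferentiableAt ℂ (hp.localInverse _ _ _ hp') (g z) := by
      rw [hgz]
      exact hψ.hasDerivAt.differentiableAt
    exact hd.comp z hg
  exact h2.differentiableAt_iff.mpr h3

/-- **Holomorphic roots of nonvanishing functions** on open simply connected sets. -/
theorem exists_differentiableOn_pow_eq_of_ne_zero {U : Set ℂ} (hUo : IsOpen U)
    (hUc : IsSimplyConnected U) {g : ℂ → ℂ} (hg : DifferentiableOn ℂ g U)
    (h0 : ∀ z ∈ U, g z ≠ 0) {m : ℕ} (hm : m ≠ 0) :
    ∃ r : ℂ → ℂ, DifferentiableOn ℂ r U ∧ ∀ z ∈ U, r z ^ m = g z := by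
  have h0' : (0 : ℂ) ∉ g '' U := by
    rintro ⟨z, hz, hz0⟩
    exact h0 z hz hz0
  obtain ⟨r, hrc, hr⟩ := Complex.exists_continuousOn_pow_eq hUc hUo hg.continuousOn h0' hm
  refine ⟨r, fun z hz => ?_, fun z _ => hr z⟩
  have hU : U ∈ 𝓝 z := hUo.mem_nhds hz
  refine (differentiableAt_of_pow_eq hm (hrc.continuousAt hU) (hg.differentiableAt hU) ?_
    (Eventually.of_forall hr)).differentiableWithinAt
  intro hrz
  have := hr z
  rw [hrz, zero_pow hm] at this
  exact h0 z hz this.symm

end Fermat.Agent.FF2.G0
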