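import Mathlib
import Fermat.Agent.FF2.G0.RootNonvanish

/-!
# MOONSHOT S19, node (G0-1b): holomorphic `m`-th roots on a relatively compact simply connected set

`exists_differentiableOn_pow_eq_of_subset_compact` : let `V` be open and simply connected, contained
in a compact set `K`.  If `f` is analytic on a neighbourhood of `K`, nowhere locally zero, and all
its orders of vanishing in `V` are divisible by `m`, then `f` has a holomorphic `m`-th root on `V`.

Proof: Mathlib's `MeromorphicOn.extract_zeros_poles` writes `f = ∏ (z - u) ^ (ord_u f) · g` with `g`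
analytic without zeros; take the root of `g` from `RootNonvanish`.
-/

set_option autoImplicit false

namespace Fermat.Agent.FF2.G0

open Complex Filter Topology Set Metric

theorem isSimplyConnected_ball {c : ℂ} {R : ℝ} (hR : 0 < R) : IsSimplyConnected (ball c R) := by
  have : ContractibleSpace (ball c R) := Metric.contractibleSpace_ball hR
  exact (SimplyConnectedSpace.ofContractible (ball c R) : SimplyConnectedSpace (ball c R))

/-- Two functions continuous on an open set `V` which agree on a codiscrete subset of `V` agree on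
`V`. -/
theorem eqOn_of_eventuallyEq_codiscreteWithin {V : Set ℂ} (hV : IsOpen V) {a b : ℂ → ℂ}
    (ha : ContinuousOn a V) (hb : ContinuousOn b V) (hab : a =ᶠ[codiscreteWithin V] b) :
    EqOn a b V := by
  intro x hx
  have h1 : ∀ᶠ y in 𝓝[≠] x, a y = b y := by
    have h2 := hab
    rw [EventuallyEq, Filter.Eventually, mem_codiscreteWithin] at h2
    have h3 := h2 x hx
    rw [disjoint_principal_right] at h3
    have hVx : V ∈ 𝓝[≠] x := mem_nhdsWithin_of_mem_nhds (hV.mem_nhds hx)
    filter_upwards [h3, hVx] with y hy hyV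
    by_contra hne
    exact hy ⟨hyV, hne⟩
  have hVx : V ∈ 𝓝 x := hV.mem_nhds hx
  have hta : Tendsto a (𝓝[≠] x) (𝓝 (a x)) :=
    ((ha.continuousAt hVx).tendsto).mono_left nhdsWithin_le_nhds
  have htb : Tendsto b (𝓝[≠] x) (𝓝 (b x)) :=
    ((hb.continuousAt hVx).tendsto).mono_left nhdsWithin_le_nhds
  exact tendsto_nhds_unique_of_eventuallyEq hta htb h1

theorem exists_differentiableOn_pow_eq_of_subset_compact {V K : Set ℂ} {f : ℂ → ℂ} {m : ℕ}
    (hm : m ≠ 0) (hVo : IsOpen V) (hVc : IsSimplyConnected V) (hK : IsCompact K) (hVK : V ⊆ K)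
    (hf : AnalyticOnNhd ℂ f K)
    (hne : ∀ u ∈ K, analyticOrderAt f u ≠ ⊤)
    (hdvd : ∀ u ∈ V, m ∣ analyticOrderNatAt f u) :
    ∃ h : ℂ → ℂ, DifferentiableOn ℂ h V ∧ ∀ z ∈ V, h z ^ m = f z := by
  have hmer : MeromorphicOn f K := hf.meromorphicOn
  have hmerb : MeromorphicOn f V := fun x hx => hmer x (hVK hx)
  have hfin : (MeromorphicOn.divisor f V).support.Finite :=
    hmer.divisor_support_finite_of_subset hK hVK
  have hord : ∀ u ∈ K,
      meromorphicOrderAt f u = ((analyticOrderNatAt f u : ℤ) : WithTop ℤ) := by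
    intro u hu
    rw [(hf u hu).meromorphicOrderAt_eq]
    have h1 := hne u hu
    unfold analyticOrderNatAt
    lift analyticOrderAt f u to ℕ using h1 with n hn
    simp
  have h₂f : ∀ u : V, meromorphicOrderAt f u ≠ ⊤ := by
    intro u
    rw [hord u (hVK u.2)]
    exact WithTop.coe_ne_top
  obtain ⟨g, hg_an, hg_ne, hfg⟩ := hmerb.extract_zeros_poles h₂f hfin
  set D := MeromorphicOn.divisor f V with hD
  have hDu : ∀ u ∈ V, D u = (analyticOrderNatAt f u : ℤ) := by
    intro u hu
    rw [hD, MeromorphicOn.divisor_apply hmerb hu, hord u (hVK hu)]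
    rfl
  -- the exponents divided by `m`
  let k : ℂ → ℤ := fun u => D u / (m : ℤ)
  have hmk : ∀ u, D u = k u * (m : ℤ) := by
    intro u
    by_cases hu : u ∈ V
    · have h1 : (m : ℤ) ∣ D u := by
        rw [hDu u hu]
        exact_mod_cast hdvd u hu
      exact (Int.ediv_mul_cancel h1).symm
    · have h1 : D u = 0 := D.apply_eq_zero_of_notMem hu
      simp only [k, h1, Int.zero_ediv, zero_mul]
  have hk_nonneg : ∀ u, 0 ≤ k u := by
    intro u
    have hm' : (0 : ℤ) < m := by exact_mod_cast Nat.pos_of_ne_zero hm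
    by_cases hu : u ∈ V
    · exact Int.ediv_nonneg (by rw [hDu u hu]; positivity) hm'.le
    · have h1 : D u = 0 := D.apply_eq_zero_of_notMem hu
      simp only [k, h1, Int.zero_ediv, le_refl]
  have hk_supp : k.support ⊆ (D : ℂ → ℤ).support := by
    intro u hu
    rw [Function.mem_support] at hu ⊢
    intro h0
    apply hu
    simp only [k, h0, Int.zero_ediv]
  have hkfin : k.support.Finite := hfin.subset hk_supp
  -- the root of `g`
  obtain ⟨r, hr_d, hr⟩ := exists_differentiableOn_pow_eq_of_ne_zero hVo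
    hVc (hg_an.differentiableOn) (fun z hz => hg_ne ⟨z, hz⟩) hm
  let P : ℂ → ℂ := ∏ᶠ u, (· - u) ^ k u
  have hP_an : ∀ x, AnalyticAt ℂ P x := fun x =>
    Function.FactorizedRational.analyticAt (hk_nonneg x)
  have hP_d : DifferentiableOn ℂ P V :=
    fun x _ => (hP_an x).differentiableAt.differentiableWithinAt
  refine ⟨P * r, ?_, ?_⟩
  · exact hP_d.mul hr_d
  · -- `P ^ m = ∏ᶠ (· - u) ^ D u`
    have hPm : P ^ m = ∏ᶠ u, (· - u) ^ D u := by
      have hsupp : (Function.mulSupport fun u : ℂ => ((· - u) ^ k u : ℂ → ℂ)).Finite := by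
        rw [Function.FactorizedRational.mulSupport]
        exact hkfin
      show (∏ᶠ u, ((· - u) ^ k u : ℂ → ℂ)) ^ m = _
      rw [finprod_pow hsupp]
      refine finprod_congr fun u => ?_
      rw [hmk u, zpow_mul, zpow_natCast]
    have heq : EqOn ((P * r) ^ m) f V := by
      refine eqOn_of_eventuallyEq_codiscreteWithin hVo ?_ ?_ ?_
      · exact (hP_d.continuousOn.mul hr_d.continuousOn).pow m
      · exact (hf.mono hVK).continuousOn
      · filter_upwards [hfg, self_mem_codiscreteWithin V] with z hz hzb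
        rw [hz, Pi.pow_apply, Pi.mul_apply, mul_pow, hr z hzb, Pi.smul_apply', smul_eq_mul,
          ← hPm, Pi.pow_apply]
    intro z hz
    have := heq hz
    simpa using this

end Fermat.Agent.FF2.G0
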