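import Mathlib
import Fermat.Agent.FF2.G0.RootCompact

/-!
# MOONSHOT S19, node (G0-1c): holomorphic `m`-th roots on the upper half plane

`exists_differentiableOn_pow_eq_upperHP` : a holomorphic function `f ≢ 0` on
`upperHP = {z | 0 < z.im}` all of whose orders of vanishing are divisible by `m` has a holomorphic
`m`-th root on `upperHP`.

Proof: exhaust by the open rectangles `rect T` (relatively compact, convex); on each of them
`RootCompact` gives a root, normalised at one base point `z₀` with `f z₀ ≠ 0`; normalised roots are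
unique on connected sets, hence glue.
-/

set_option autoImplicit false

namespace Fermat.Agent.FF2.G0

open Complex Filter Topology Set Metric

/-- The upper half plane as a subset of `ℂ`. -/
def upperHP : Set ℂ := {z | 0 < z.im}

theorem isOpen_upperHP : IsOpen upperHP := isOpen_lt continuous_const Complex.continuous_im

theorem convex_upperHP : Convex ℝ upperHP := convex_halfSpace_im_gt 0

/-- Open rectangles exhausting the upper half plane. -/
def rect (T : ℝ) : Set ℂ := {z | -T < z.re ∧ z.re < T ∧ T⁻¹ < z.im ∧ z.im < T}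

/-- The closed rectangles. -/
def rectK (T : ℝ) : Set ℂ := Icc (-T) T ×ℂ Icc T⁻¹ T

theorem rect_subset_rectK (T : ℝ) : rect T ⊆ rectK T := by
  rintro z ⟨h1, h2, h3, h4⟩
  exact ⟨⟨h1.le, h2.le⟩, ⟨h3.le, h4.le⟩⟩

theorem rectK_subset_upperHP {T : ℝ} (hT : 0 < T) : rectK T ⊆ upperHP := by
  rintro z ⟨-, h3, -⟩
  exact lt_of_lt_of_le (inv_pos.mpr hT) h3

theorem isCompact_rectK (T : ℝ) : IsCompact (rectK T) := isCompact_Icc.reProdIm isCompact_Icc

theorem rect_eq_inter (T : ℝ) : rect T = {z : ℂ | -T < z.re} ∩ {z : ℂ | z.re < T} ∩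
    {z : ℂ | T⁻¹ < z.im} ∩ {z : ℂ | z.im < T} := by
  ext z
  constructor
  · rintro ⟨h1, h2, h3, h4⟩
    exact ⟨⟨⟨h1, h2⟩, h3⟩, h4⟩
  · rintro ⟨⟨⟨h1, h2⟩, h3⟩, h4⟩
    exact ⟨h1, h2, h3, h4⟩

theorem isOpen_rect (T : ℝ) : IsOpen (rect T) := by
  have h1 : IsOpen {z : ℂ | -T < z.re} := isOpen_lt continuous_const Complex.continuous_re
  have h2 : IsOpen {z : ℂ | z.re < T} := isOpen_lt Complex.continuous_re continuous_const
  have h3 : IsOpen {z : ℂ | T⁻¹ < z.im} := isOpen_lt continuous_const Complex.continuous_im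
  have h4 : IsOpen {z : ℂ | z.im < T} := isOpen_lt Complex.continuous_im continuous_const
  rw [rect_eq_inter]
  exact ((h1.inter h2).inter h3).inter h4

theorem convex_rect (T : ℝ) : Convex ℝ (rect T) := by
  rw [rect_eq_inter]
  exact (((convex_halfSpace_re_gt _).inter (convex_halfSpace_re_lt _)).inter
    (convex_halfSpace_im_gt _)).inter (convex_halfSpace_im_lt _)

theorem rect_mono {T T' : ℝ} (hT : 0 < T) (h : T ≤ T') : rect T ⊆ rect T' := by
  rintro z ⟨h1, h2, h3, h4⟩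
  refine ⟨by linarith, by linarith, lt_of_le_of_lt ?_ h3, by linarith⟩
  exact inv_anti₀ hT h

/-- A bound such that `z ∈ rect T` as soon as `bound z ≤ T`. -/
noncomputable def bound (z : ℂ) : ℝ := |z.re| + z.im + (z.im)⁻¹ + 1

theorem bound_pos {z : ℂ} (hz : z ∈ upperHP) : 0 < bound z := by
  have h1 : 0 < z.im := hz
  have h2 : 0 < (z.im)⁻¹ := inv_pos.mpr h1
  have h3 := abs_nonneg z.re
  unfold bound
  linarith

theorem mem_rect_of_bound_le {z : ℂ} (hz : z ∈ upperHP) {T : ℝ} (hT : bound z ≤ T) :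
    z ∈ rect T := by
  have h1 : 0 < z.im := hz
  have h2 : 0 < (z.im)⁻¹ := inv_pos.mpr h1
  have h3 := abs_nonneg z.re
  have h4 := le_abs_self z.re
  have h5 := neg_abs_le z.re
  unfold bound at hT
  have hTpos : 0 < T := by linarith
  refine ⟨by linarith, by linarith, ?_, by linarith⟩
  rw [inv_lt_comm₀ hTpos h1]
  linarith

theorem isSimplyConnected_rect {T : ℝ} (hne : (rect T).Nonempty) : IsSimplyConnected (rect T) := by
  have : ContractibleSpace (rect T) := (convex_rect T).contractibleSpace hne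
  exact (SimplyConnectedSpace.ofContractible (rect T) : SimplyConnectedSpace (rect T))

/-- **Uniqueness of normalised roots** on a preconnected open set. -/
theorem eqOn_of_pow_eq_of_eq_at {V : Set ℂ} (hVo : IsOpen V) (hVc : IsPreconnected V)
    {h₁ h₂ : ℂ → ℂ} {m : ℕ} (hm : m ≠ 0) (hd₁ : DifferentiableOn ℂ h₁ V)
    (hd₂ : DifferentiableOn ℂ h₂ V) (hpow : ∀ z ∈ V, h₁ z ^ m = h₂ z ^ m) {z₀ : ℂ} (hz₀ : z₀ ∈ V)
    (h0 : h₁ z₀ ≠ 0) (heq : h₁ z₀ = h₂ z₀) : EqOn h₁ h₂ V := by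
  have hV : V ∈ 𝓝 z₀ := hVo.mem_nhds hz₀
  have hp : HasStrictDerivAt (fun w : ℂ => w ^ m) ((m : ℂ) * h₁ z₀ ^ (m - 1)) (h₁ z₀) :=
    hasStrictDerivAt_pow m (h₁ z₀)
  have hp' : (m : ℂ) * h₁ z₀ ^ (m - 1) ≠ 0 :=
    mul_ne_zero (Nat.cast_ne_zero.mpr hm) (pow_ne_zero _ h0)
  have hinv := hp.eventually_left_inverse hp'
  have hc₁ : ContinuousAt h₁ z₀ := (hd₁.differentiableAt hV).continuousAt
  have hc₂ : ContinuousAt h₂ z₀ := (hd₂.differentiableAt hV).continuousAt
  have e₁ : ∀ᶠ y in 𝓝 z₀, hp.localInverse _ _ _ hp' (h₁ y ^ m) = h₁ y := hc₁.eventually hinv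
  have e₂ : ∀ᶠ y in 𝓝 z₀, hp.localInverse _ _ _ hp' (h₂ y ^ m) = h₂ y := by
    have : ContinuousAt h₂ z₀ := hc₂
    rw [ContinuousAt, ← heq] at this
    exact this.eventually hinv
  have hev : h₁ =ᶠ[𝓝 z₀] h₂ := by
    filter_upwards [e₁, e₂, hV] with y hy1 hy2 hyV
    rw [← hy1, ← hy2, hpow y hyV]
  exact (hd₁.analyticOnNhd hVo).eqOn_of_preconnected_of_eventuallyEq (hd₂.analyticOnNhd hVo) hVc
    hz₀ hev

/-- **Holomorphic `m`-th roots on the upper half plane.** -/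
theorem exists_differentiableOn_pow_eq_upperHP {f : ℂ → ℂ} {m : ℕ} (hm : m ≠ 0)
    (hf : DifferentiableOn ℂ f upperHP) (hne : ∃ z ∈ upperHP, f z ≠ 0)
    (hdvd : ∀ z ∈ upperHP, m ∣ analyticOrderNatAt f z) :
    ∃ h : ℂ → ℂ, DifferentiableOn ℂ h upperHP ∧ ∀ z ∈ upperHP, h z ^ m = f z := by
  obtain ⟨z₀, hz₀, hfz₀⟩ := hne
  have hfan : AnalyticOnNhd ℂ f upperHP := hf.analyticOnNhd isOpen_upperHP
  -- orders are finite
  have hfin : ∀ u ∈ upperHP, analyticOrderAt f u ≠ ⊤ := by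
    intro u hu htop
    rw [analyticOrderAt_eq_top] at htop
    have := hfan.eqOn_zero_of_preconnected_of_eventuallyEq_zero
      convex_upperHP.isPreconnected hu htop
    exact hfz₀ (this hz₀)
  obtain ⟨w₀, hw₀⟩ := IsAlgClosed.exists_pow_nat_eq (f z₀) (Nat.pos_of_ne_zero hm)
  have hw₀0 : w₀ ≠ 0 := by
    rintro rfl
    rw [zero_pow hm] at hw₀
    exact hfz₀ hw₀.symm
  -- normalised roots on the rectangles
  have hex : ∀ T : ℝ, z₀ ∈ rect T → ∃ h : ℂ → ℂ, DifferentiableOn ℂ h (rect T) ∧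
      (∀ z ∈ rect T, h z ^ m = f z) ∧ h z₀ = w₀ := by
    intro T hT
    have hTpos : 0 < T := by
      obtain ⟨h1, h2, -, -⟩ := hT
      linarith
    have hsub : rectK T ⊆ upperHP := rectK_subset_upperHP hTpos
    obtain ⟨h, hd, hpow⟩ := exists_differentiableOn_pow_eq_of_subset_compact hm (isOpen_rect T)
      (isSimplyConnected_rect ⟨z₀, hT⟩) (isCompact_rectK T) (rect_subset_rectK T)
      (hfan.mono hsub) (fun u hu => hfin u (hsub hu))
      (fun u hu => hdvd u (hsub (rect_subset_rectK T hu)))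
    have hhz₀ : h z₀ ≠ 0 := by
      intro h0
      have := hpow z₀ hT
      rw [h0, zero_pow hm] at this
      exact hfz₀ this.symm
    refine ⟨fun z => (w₀ / h z₀) * h z, (hd.const_smul (w₀ / h z₀) : _), fun z hz => ?_, ?_⟩
    · rw [mul_pow, div_pow, hpow z hz, hw₀, hpow z₀ hT, div_self hfz₀, one_mul]
    · simp only [div_mul_cancel₀ _ hhz₀]
  classical
  let hT : ℝ → ℂ → ℂ := fun T => if h : z₀ ∈ rect T then Classical.choose (hex T h) else 0
  have hT_spec : ∀ T, z₀ ∈ rect T → DifferentiableOn ℂ (hT T) (rect T) ∧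
      (∀ z ∈ rect T, hT T z ^ m = f z) ∧ hT T z₀ = w₀ := by
    intro T h
    simp only [hT, dif_pos h]
    exact Classical.choose_spec (hex T h)
  -- agreement
  have hagree : ∀ T T' : ℝ, z₀ ∈ rect T → T ≤ T' → EqOn (hT T) (hT T') (rect T) := by
    intro T T' hz hle
    have hTpos : 0 < T := by
      obtain ⟨h1, h2, -, -⟩ := hz
      linarith
    have hsub : rect T ⊆ rect T' := rect_mono hTpos hle
    obtain ⟨hd1, hp1, hn1⟩ := hT_spec T hz
    obtain ⟨hd2, hp2, hn2⟩ := hT_spec T' (hsub hz)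
    refine eqOn_of_pow_eq_of_eq_at (isOpen_rect T) (convex_rect T).isPreconnected hm hd1
      (hd2.mono hsub) (fun z hzT => ?_) hz ?_ ?_
    · rw [hp1 z hzT, hp2 z (hsub hzT)]
    · rw [hn1]; exact hw₀0
    · rw [hn1, hn2]
  let Tz : ℂ → ℝ := fun z => bound z + bound z₀
  have hTz₀ : ∀ z ∈ upperHP, z₀ ∈ rect (Tz z) := fun z hz =>
    mem_rect_of_bound_le hz₀ (by have := bound_pos hz; simp only [Tz]; linarith)
  have hTz : ∀ z ∈ upperHP, z ∈ rect (Tz z) := fun z hz =>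
    mem_rect_of_bound_le hz (by have := bound_pos hz₀; simp only [Tz]; linarith)
  let H : ℂ → ℂ := fun z => hT (Tz z) z
  have hH : ∀ z₁ ∈ upperHP, EqOn H (hT (Tz z₁)) (rect (Tz z₁)) := by
    intro z₁ hz₁ z hz
    have hTpos : 0 < Tz z₁ := by
      have := bound_pos hz₁; have := bound_pos hz₀; simp only [Tz]; linarith
    have hzU : z ∈ upperHP := rectK_subset_upperHP hTpos (rect_subset_rectK _ hz)
    show hT (Tz z) z = hT (Tz z₁) z
    rcases le_total (Tz z) (Tz z₁) with hle | hle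
    · exact hagree _ _ (hTz₀ z hzU) hle (hTz z hzU)
    · exact (hagree _ _ (hTz₀ z₁ hz₁) hle hz).symm
  refine ⟨H, fun z₁ hz₁ => ?_, fun z₁ hz₁ => ?_⟩
  · have hnhds : rect (Tz z₁) ∈ 𝓝 z₁ := (isOpen_rect _).mem_nhds (hTz z₁ hz₁)
    have hev : H =ᶠ[𝓝 z₁] hT (Tz z₁) := Filter.eventuallyEq_of_mem hnhds (hH z₁ hz₁)
    have hd := ((hT_spec _ (hTz₀ z₁ hz₁)).1).differentiableAt hnhds
    exact (hev.differentiableAt_iff.mpr hd).differentiableWithinAt
  · rw [hH z₁ hz₁ (hTz z₁ hz₁)]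
    exact (hT_spec _ (hTz₀ z₁ hz₁)).2.1 z₁ (hTz z₁ hz₁)

end Fermat.Agent.FF2.G0
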