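import Mathlib
import Fermat.Agent.X0.ModVal
import Fermat.Agent.FF2.G0.RootHalfPlane

/-!
# MOONSHOT S19, node (G0-1): holomorphic `m`-th roots on `ℍ`, in main's vocabulary

`exists_mdiff_pow_eq` : a holomorphic `F : ℍ → ℂ`, `F ≠ 0`, with `m ∣ ordH F z` for all `z : ℍ`
(`ordH` of `Fermat/Agent/X0/ModVal.lean`) is the `m`-th power of a holomorphic function on `ℍ`.

`exists_holH_pow_eq` : the same statement in the ring `HolH` of `X0/ModComplete.lean` is a one-line
consequence left to the consumer (it only repackages `MDiff`).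
-/

set_option autoImplicit false

namespace Fermat.Agent.FF2.G0

open UpperHalfPlane Filter Topology
open scoped Manifold

open Fermat.Agent.X0 (ordH)

theorem exists_mdiff_pow_eq {F : ℍ → ℂ} (hF : MDiff F) (h0 : F ≠ 0) {m : ℕ} (hm : m ≠ 0)
    (hdvd : ∀ z : ℍ, m ∣ ordH F z) : ∃ h : ℍ → ℂ, MDiff h ∧ h ^ m = F := by
  have hf : DifferentiableOn ℂ (F ∘ ofComplex) upperHP := mdifferentiable_iff.mp hF
  have hne : ∃ z ∈ upperHP, (F ∘ ofComplex) z ≠ 0 := by
    obtain ⟨τ, hτ⟩ := Function.ne_iff.mp h0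
    refine ⟨(τ : ℂ), τ.im_pos, ?_⟩
    rw [Function.comp_apply, ofComplex_apply]
    exact hτ
  have hd : ∀ z ∈ upperHP, m ∣ analyticOrderNatAt (F ∘ ofComplex) z := by
    intro z hz
    exact hdvd ⟨z, hz⟩
  obtain ⟨h, hhd, hpow⟩ := exists_differentiableOn_pow_eq_upperHP hm hf hne hd
  refine ⟨fun τ => h (τ : ℂ), ?_, ?_⟩
  · rw [mdifferentiable_iff]
    refine hhd.congr fun z hz => ?_
    rw [Function.comp_apply, ofComplex_apply_of_im_pos hz]
  · funext τ
    have := hpow (τ : ℂ) τ.im_pos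
    rw [Function.comp_apply, ofComplex_apply] at this
    simpa using this

end Fermat.Agent.FF2.G0
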